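import Mathlib
import Fermat.Prelude.Def_ModularCurve_PeriodMap

/-!
# S36 / Top : the Fricke conjugation on `Γ₀(M)` and on characters
-/

set_option autoImplicit false

open CongruenceSubgroup ModularCurve.Period
open scoped MatrixGroups

namespace Fermat.Agent.S36.Top

theorem dvd_of_mem {M : ℕ} (γ : Gamma0 M) : (M : ℤ) ∣ (γ : SL(2, ℤ)) 1 0 :=
  (ZMod.intCast_zmod_eq_zero_iff_dvd _ _).mp (Gamma0_mem.mp γ.2)

/-- `(a b; c d) ↦ (d, -c/M; -M b, a)`, i.e. conjugation by `w_M = (0 -1; M 0)`. -/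
def frickeMat (M : ℕ) (γ : SL(2, ℤ)) : Matrix (Fin 2) (Fin 2) ℤ :=
  !![γ 1 1, -(γ 1 0 / M); -(M * γ 0 1), γ 0 0]

theorem det_frickeMat {M : ℕ} (γ : Gamma0 M) : (frickeMat M (γ : SL(2, ℤ))).det = 1 := by
  obtain ⟨c, hc⟩ := dvd_of_mem γ
  have hdet := (γ : SL(2, ℤ)).2
  rw [Matrix.det_fin_two] at hdet
  rw [frickeMat, Matrix.det_fin_two_of]
  by_cases hM : (M : ℤ) = 0
  · rw [hM, zero_mul] at hc
    simp only [hM, hc] at hdet ⊢
    simp at hdet ⊢
    linarith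
  · have h1 : (γ : SL(2, ℤ)) 1 0 / (M : ℤ) = c := by rw [hc, Int.mul_ediv_cancel_left _ hM]
    rw [h1]
    have h2 : ((γ : SL(2, ℤ)) : Matrix (Fin 2) (Fin 2) ℤ) 1 0 = M * c := hc
    rw [h2] at hdet
    linarith

/-- the Fricke conjugate in `SL₂(ℤ)` -/
def frickeSL (M : ℕ) (γ : Gamma0 M) : SL(2, ℤ) := ⟨frickeMat M (γ : SL(2, ℤ)), det_frickeMat γ⟩

/-- the Fricke conjugation as a map `Γ₀(M) → Γ₀(M)` -/
def frickeFun (M : ℕ) (γ : Gamma0 M) : Gamma0 M :=
  ⟨frickeSL M γ, by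
    rw [Gamma0_mem]
    show ((-(M * (γ : SL(2, ℤ)) 0 1) : ℤ) : ZMod M) = 0
    simp⟩

theorem frickeFun_coe (M : ℕ) (γ : Gamma0 M) :
    (((frickeFun M γ : Gamma0 M) : SL(2, ℤ)) : Matrix (Fin 2) (Fin 2) ℤ)
      = frickeMat M (γ : SL(2, ℤ)) := rfl

/-- the Fricke conjugation `Γ₀(M) →* Γ₀(M)` -/
def frickeConj (M : ℕ) [NeZero M] : Gamma0 M →* Gamma0 M where
  toFun := frickeFun M
  map_one' := by
    apply Subtype.ext
    apply Subtype.ext
    rw [frickeFun_coe]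
    ext i j
    fin_cases i <;> fin_cases j <;> simp [frickeMat]
  map_mul' γ δ := by
    have hM : (M : ℤ) ≠ 0 := by exact_mod_cast NeZero.ne M
    obtain ⟨c, hc⟩ := dvd_of_mem γ
    obtain ⟨c', hc'⟩ := dvd_of_mem δ
    apply Subtype.ext
    apply Subtype.ext
    show frickeMat M ((γ : SL(2, ℤ)) * (δ : SL(2, ℤ))) =
      frickeMat M (γ : SL(2, ℤ)) * frickeMat M (δ : SL(2, ℤ))
    have e10 : (((γ : SL(2, ℤ)) : Matrix (Fin 2) (Fin 2) ℤ) * ((δ : SL(2, ℤ)) :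
        Matrix (Fin 2) (Fin 2) ℤ)) 1 0
        = (M : ℤ) * (c * (δ : SL(2, ℤ)) 0 0 + (γ : SL(2, ℤ)) 1 1 * c') := by
      rw [Matrix.mul_apply, Fin.sum_univ_two, hc, hc']
      ring
    ext i j
    fin_cases i <;> fin_cases j
    · simp only [frickeMat, Matrix.SpecialLinearGroup.coe_mul, Matrix.mul_apply, Fin.sum_univ_two]
      simp
      rw [hc, Int.mul_ediv_cancel_left _ hM]
      ring
    · simp only [frickeMat]
      simp only [Matrix.mul_apply, Fin.sum_univ_two]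
      simp
      rw [e10, hc, hc', Int.mul_ediv_cancel_left _ hM, Int.mul_ediv_cancel_left _ hM,
        Int.mul_ediv_cancel_left _ hM]
      ring
    · simp only [frickeMat, Matrix.SpecialLinearGroup.coe_mul, Matrix.mul_apply, Fin.sum_univ_two]
      simp
      ring
    · simp only [frickeMat, Matrix.SpecialLinearGroup.coe_mul, Matrix.mul_apply, Fin.sum_univ_two]
      simp
      rw [hc', Int.mul_ediv_cancel_left _ hM]
      ring

end Fermat.Agent.S36.Top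

namespace Fermat.Agent.S36.Top

theorem frickeConj_coe (M : ℕ) [NeZero M] (γ : Gamma0 M) :
    (((frickeConj M γ : Gamma0 M) : SL(2, ℤ)) : Matrix (Fin 2) (Fin 2) ℤ)
      = frickeMat M (γ : SL(2, ℤ)) := rfl

theorem trace_frickeConj (M : ℕ) [NeZero M] (γ : Gamma0 M) :
    (((frickeConj M γ : Gamma0 M) : SL(2, ℤ)) : Matrix (Fin 2) (Fin 2) ℤ).trace
      = ((γ : SL(2, ℤ)) : Matrix (Fin 2) (Fin 2) ℤ).trace := by
  rw [frickeConj_coe, Matrix.trace_fin_two, Matrix.trace_fin_two]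
  simp [frickeMat, add_comm]

theorem frickeConj_frickeConj (M : ℕ) [NeZero M] (γ : Gamma0 M) :
    frickeConj M (frickeConj M γ) = γ := by
  have hM : (M : ℤ) ≠ 0 := by exact_mod_cast NeZero.ne M
  obtain ⟨c, hc⟩ := dvd_of_mem γ
  apply Subtype.ext
  apply Subtype.ext
  rw [frickeConj_coe]
  have h : ∀ i j, ((frickeConj M γ : Gamma0 M) : SL(2, ℤ)) i j = frickeMat M (γ : SL(2, ℤ)) i j :=
    fun i j => rfl
  ext i j
  fin_cases i <;> fin_cases j
  · simp [frickeMat, h]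
  · simp only [frickeMat, h]
    simp
    rw [Int.neg_ediv_of_dvd (Dvd.intro _ rfl), Int.mul_ediv_cancel_left _ hM, neg_neg]
  · simp only [frickeMat, h]
    simp
    rw [hc, Int.mul_ediv_cancel_left _ hM]
  · simp [frickeMat, h]

/-- the Fricke involution on characters of `Γ₀(M)` -/
def Wop (M : ℕ) [NeZero M] {A : Type*} [AddCommGroup A] (χ : Additive (Gamma0 M) →+ A) :
    Additive (Gamma0 M) →+ A :=
  χ.comp (MonoidHom.toAdditive (frickeConj M))

theorem Wop_apply (M : ℕ) [NeZero M] {A : Type*} [AddCommGroup A]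
    (χ : Additive (Gamma0 M) →+ A) (γ : Gamma0 M) :
    Wop M χ (Additive.ofMul γ) = χ (Additive.ofMul (frickeConj M γ)) := rfl

theorem Wop_Wop (M : ℕ) [NeZero M] {A : Type*} [AddCommGroup A]
    (χ : Additive (Gamma0 M) →+ A) : Wop M (Wop M χ) = χ := by
  refine AddMonoidHom.ext fun γ' => ?_
  obtain ⟨γ, rfl⟩ : ∃ γ, Additive.ofMul γ = γ' := ⟨_, rfl⟩
  rw [Wop_apply, Wop_apply, frickeConj_frickeConj]

theorem Wop_add (M : ℕ) [NeZero M] {A : Type*} [AddCommGroup A]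
    (χ χ' : Additive (Gamma0 M) →+ A) : Wop M (χ + χ') = Wop M χ + Wop M χ' := rfl

theorem comp_Wop (M : ℕ) [NeZero M] {A B : Type*} [AddCommGroup A] [AddCommGroup B] (u : A →+ B)
    (χ : Additive (Gamma0 M) →+ A) : u.comp (Wop M χ) = Wop M (u.comp χ) := rfl

theorem Wop_parabolic (M : ℕ) [NeZero M] {A : Type*} [AddCommGroup A]
    {χ : Additive (Gamma0 M) →+ A} (h : IsParabolicHom (Gamma0 M) χ) :
    IsParabolicHom (Gamma0 M) (Wop M χ) := fun γ hγ => by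
  rw [Wop_apply]
  exact h _ (by rw [trace_frickeConj]; exact hγ)

end Fermat.Agent.S36.Top
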