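import Mathlib
import Fermat.Agent.ES.Coh.Assemble
import Fermat.Agent.S36.Top.Fricke
import Fermat.Prelude.Def_CuspForm_Newforms

/-!
# S36 / Top : interface (owner helper21)

`[contract (Z)] + [annihilator (Ann)] + FD  ⟹  frozen S36`.

* `Stmt_Z D p r` : THE CONTRACT with the geometric part (helper84 #1213 (B), helper5 [DICT-r]).
* `Stmt_Ann`     : THE CONTRACT with [SMO] (helper99) + level lowering of `U_r`.
-/

set_option autoImplicit false

open CongruenceSubgroup ModularCurve ModularCurve.Period CuspForm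
open scoped MatrixGroups TensorProduct
open Fermat.Agent.S24 (Qbar)
open Fermat.Agent.ES.Mid (IsPE GQ)
open Fermat.Agent.ES.Coh (FinLevelData)

namespace Fermat.Agent.S36.Top

/-- **Contract (Z)**: a character `χ : Γ₀(M) → ℤ/p^n` killing parabolic and elliptic elements,
fixed by an inertia group at `r`, and such that `U_r χ = 0 = U_r (W χ)`, is killed by a nonzero
integer `c` independent of `n`. -/
def Stmt_Z {M : ℕ} [NeZero M] (D : FinLevelData M) (p : ℕ) [Fact p.Prime] (r : Nat.Primes) : Prop :=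
  ∃ c : ℕ, c ≠ 0 ∧ ∀ P : ValuationSubring Qbar, P.LiesOverPrime r →
    ∀ (n : ℕ) (χ : Additive (Gamma0 M) →+ ZMod (p ^ n)), IsPE χ →
      (∀ σ ∈ P.inertiaSubgroupIn ℚ, D.act (p ^ n) σ χ = χ) →
      Fermat.Agent.ES.Mid.tau M r (ZMod (p ^ n)) χ = 0 →
      Fermat.Agent.ES.Mid.tau M r (ZMod (p ^ n)) (Wop M χ) = 0 →
      c • χ = 0

/-- **Contract (Ann)**: for a newform `g` of level `M` and a prime `r` with `r² ∣ M` there is a
Hecke operator away from `S` which kills the image of `U_r` and does not kill `g`. -/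
def Stmt_Ann : Prop :=
  ∀ (M : ℕ) [NeZero M] (g : CuspForm (Gamma0 M) 2), g.IsNewform → ∀ (S : Finset ℕ),
    (∀ q : ℕ, q.Prime → q ∣ M → q ∈ S) →
    ∀ (chig : heckeAlgebra M 2 (↑S : Set ℕ) →+* ℂ),
      (∀ (ℓ : ℕ) (hℓ : ℓ.Prime) (hℓM : ¬ ℓ ∣ M) (hℓS : ℓ ∉ (↑S : Set ℕ)),
        chig (heckeAlgebra.T hℓ hℓM hℓS) = ModularFormClass.qCoeff g ℓ) →
    ∀ (r : ℕ) (hrM : r ∣ M), r.Prime → r ^ 2 ∣ M →
      ∃ x : heckeAlgebra M 2 (↑S : Set ℕ), chig x ≠ 0 ∧
        ∀ f : CuspForm (Gamma0 M) 2, x.1 (heckeULin 2 hrM f) = 0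

/-- (FRICKE-COMM) the Fricke involution commutes with `T_ℓ`, `ℓ ∤ M`, on characters. -/
def Stmt_FrickeComm : Prop :=
  ∀ (M : ℕ) [NeZero M] (ℓ : Nat.Primes), ¬ (ℓ : ℕ) ∣ M → ∀ (A : Type) [AddCommGroup A]
    (χ : Additive (Gamma0 M) →+ A),
    Fermat.Agent.ES.Mid.tau M ℓ A (Wop M χ) = Wop M (Fermat.Agent.ES.Mid.tau M ℓ A χ)

/-- (KOL) Kolchin for finite free modules over a domain. -/
def Stmt_KolFree : Prop :=
  ∀ (O W G : Type) [CommRing O] [IsDomain O] [AddCommGroup W] [Module O W] [Module.Free O W]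
    [Module.Finite O W] [Nontrivial W] [Group G] (ρ : G →* Module.End O W) (I : Subgroup G),
    (∀ g ∈ I, (ρ g - 1) * (ρ g - 1) = 0) → ∃ w : W, w ≠ 0 ∧ ∀ g ∈ I, ρ g w = w

/-- (FLAT) a family of endomorphisms of a finite free module with trivial common kernel keeps a
trivial common kernel after an injective base change of domains. -/
def Stmt_FlatKer : Prop :=
  ∀ (R R' Λ J : Type) [CommRing R] [IsDomain R] [CommRing R'] [IsDomain R'] [Algebra R R']
    [AddCommGroup Λ] [Module R Λ] [Module.Free R Λ] [Module.Finite R Λ],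
    Function.Injective (algebraMap R R') → ∀ f : J → Module.End R Λ,
    (∀ x : Λ, (∀ j, f j x = 0) → x = 0) →
    ∀ v : R' ⊗[R] Λ, (∀ j, (f j).baseChange R' v = 0) → v = 0

/-- (IOTA) a ring homomorphism from the coefficient ring of an eigensystem to a domain of
characteristic zero is injective. -/
def Stmt_IotaInj : Prop :=
  ∀ (M : ℕ) [NeZero M] (S : Set ℕ) (chig : heckeAlgebra M 2 S →+* ℂ)
    (O' : Type) [CommRing O'] [IsDomain O'] [CharZero O'] (iota : chig.range →+* O'),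
    Function.Injective iota

/-- (VAL) valuation rings of `ℚ̄` over every prime. -/
def Stmt_ExistsVal : Prop :=
  ∀ q : ℕ, q.Prime → ∃ P : ValuationSubring Qbar, P.LiesOverPrime q

end Fermat.Agent.S36.Top
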