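import Fermat.Agent.ES.All
import Fermat.Agent.S36.Top.Interface
import Fermat.Agent.S36.Dict.Interface

/-!
# S36 / Top : the finite level data with its Kummer description, and the contract `(Z)`

`ES.Mid.Stmt_FinLevel` hides the action.  Here we re-export it together with the property
`Kum u χ → Kum (σ u) (act σ χ)`, and deduce `Top.Stmt_Z` from `Dict.Stmt_Z`.
-/

set_option autoImplicit false

namespace Fermat.Agent.S36.Top

open UpperHalfPlane CongruenceSubgroup AlgebraicCurve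
open scoped MatrixGroups Manifold
open Fermat.Agent.S24 (Qbar FF funAlg iota)
open Fermat.Agent.ES.Mid
open Fermat.Agent.ES.Coh (FinLevelData)

open GLUE FIX in
/-- The glue of `ES/Mid/Fix`, with the action made explicit. -/
theorem exists_finLevelData_kum_of (hMul : Stmt_KumMul) (hInv : Stmt_KumInv) (hPow : Stmt_KumPow)
    (hUn : Stmt_KumUnique) (hRed : Stmt_KumRed) (hA : Stmt_KumOfDiv) (hB : Stmt_DivOfKum)
    (hE : Stmt_KumKer) (hF : Stmt_KumSurj) (hT : Stmt_TauPE) (hH : Stmt_Hecke)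
    (hJ : Stmt_CongInertia') (hK : Stmt_ClaimK) (hL : Stmt_FixedOpen) (hM : Stmt_HomFinite)
    (N : ℕ) [NeZero N] :
    ∃ D : FinLevelData N, ∀ (m : ℕ) [NeZero m] (σ : GQ) (χ : Additive (Gamma0 N) →+ ZMod m),
      IsPE χ → ∀ u : FF N, Kum N m u χ → Kum N m (gal N σ u) (D.act m σ χ) := by
  have hW : ∀ {m : ℕ} [NeZero m] (σ : GQ) {χ : Additive (Gamma0 N) →+ ZMod m}, IsPE χ →
      ∀ {u : FF N}, Kum N m u χ → IsPE (act N m σ χ) ∧ Kum N m (gal N σ u) (act N m σ χ) :=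
    fun σ _ hχ _ hu => W hMul hInv hPow hA hB hE σ hχ hu
  have hU : ∀ {m : ℕ} [NeZero m] (σ : GQ) {χ ψ : Additive (Gamma0 N) →+ ZMod m}, IsPE χ →
      ∀ {u : FF N}, Kum N m u χ → Kum N m (gal N σ u) ψ → act N m σ χ = ψ :=
    fun σ _ _ hχ _ hu hψ => U hMul hInv hPow hUn hA hB hE σ hχ hu hψ
  refine ⟨⟨fun m _ σ χ => act N m σ χ, ?_, ?_, ?_, ?_, ?_, ?_, ?_, ?_, ?_⟩, ?_⟩
  · -- IsPE
    intro m _ σ χ hχ
    obtain ⟨u, hu⟩ := hF N m χ hχ
    exact (hW σ hχ hu).1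
  · -- add
    intro m _ σ χ χ' hχ hχ'
    obtain ⟨u, hu⟩ := hF N m χ hχ
    obtain ⟨u', hu'⟩ := hF N m χ' hχ'
    refine hU σ (isPE_add hχ hχ') (hMul N m _ _ _ _ hu hu') ?_
    rw [map_mul]
    exact hMul N m _ _ _ _ (hW σ hχ hu).2 (hW σ hχ' hu').2
  · -- one
    intro m _ χ hχ
    obtain ⟨u, hu⟩ := hF N m χ hχ
    refine hU 1 hχ hu ?_
    rwa [gal_one]
  · -- mul
    intro m _ σ τ χ hχ
    obtain ⟨u, hu⟩ := hF N m χ hχ
    refine hU (σ * τ) hχ hu ?_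
    rw [gal_mul]
    obtain ⟨h1, h2⟩ := hW τ hχ hu
    exact (hW σ h1 h2).2
  · -- red
    intro m m' _ _ h σ χ hχ
    obtain ⟨u, hu⟩ := hF N m' χ hχ
    exact (hU σ (isPE_red h hχ) (hRed N m m' h u χ hu)
      (hRed N m m' h _ _ (hW σ hχ hu).2)).symm
  · -- tau
    intro m _ ℓ hℓ σ χ hχ
    obtain ⟨u, hu⟩ := hF N m χ hχ
    obtain ⟨Nl, hN1, hN2, -⟩ := hH N ℓ hℓ
    refine hU σ (hT N ℓ _ χ hχ) (hN1 m u χ hu) ?_
    rw [← hN2]
    exact hN1 m _ _ (hW σ hχ hu).2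
  · -- finite level
    intro m _
    have hfin : Finite (Additive (Gamma0 N) →+ ZMod m) := hM N m
    have hex : ∀ χ : Additive (Gamma0 N) →+ ZMod m, ∃ L : IntermediateField ℚ Qbar,
        FiniteDimensional ℚ L ∧ ∀ σ : GQ, (∀ x ∈ L, σ x = x) → IsPE χ → act N m σ χ = χ := by
      intro χ
      by_cases hχ : IsPE χ
      · obtain ⟨u, hu⟩ := hF N m χ hχ
        obtain ⟨L, hL1, hL2⟩ := hL N u
        refine ⟨L, hL1, fun σ hσ _ => hU σ hχ hu ?_⟩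
        rwa [hL2 σ hσ]
      · exact ⟨⊥, inferInstance, fun _ _ h => absurd h hχ⟩
    choose L hL1 hL2 using hex
    refine ⟨⨆ χ, L χ, ?_, ?_⟩
    · have := hL1
      exact IntermediateField.finiteDimensional_iSup_of_finite
    · intro σ hσ χ hχ
      exact hL2 χ σ (fun x hx => hσ x ((le_iSup L χ) hx)) hχ
  · -- unramified
    intro m _ q hq hqN hqm A hA' σ hσ χ hχ
    obtain ⟨u, hu⟩ := hF N m χ hχ
    have hdu : IsDiv N m u := hB N m u χ hu hχ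
    have hdy : IsDiv N m (gal N σ u * u⁻¹) := isDiv_mul (isDiv_gal hdu σ) (isDiv_inv hdu)
    obtain ⟨w, hw, hcong⟩ := hJ N A σ hσ u hdu.1
    obtain ⟨g, hg⟩ := hK N q hq hqN A hA' m hqm _ hcong (isDiv_mul (isDiv_const N m hw) hdy)
    obtain ⟨v, hv⟩ := exists_const_pow N m w
    have hwF : algebraMap Qbar (FF N) w ≠ 0 := (isDiv_const N m hw).1
    have hg' : (g * (algebraMap Qbar (FF N) v)⁻¹) ^ m = gal N σ u * u⁻¹ := by
      rw [mul_pow, inv_pow, hv, hg, mul_comm, inv_mul_cancel_left₀ hwF]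
    have h0 := kum_zero_of_pow hPow hdy.1 hg'
    have h1 := hMul N m _ _ _ _ (hW σ hχ hu).2 (hInv N m _ _ hu)
    have h2 := hUn N m _ _ _ h1 h0
    rwa [← sub_eq_add_neg, sub_eq_zero] at h2
  · -- Eichler-Shimura relation
    intro m _ ℓ hℓN hℓm A hA' σ hσ χ hχ
    obtain ⟨u, hu⟩ := hF N m χ hχ
    have hdu : IsDiv N m u := hB N m u χ hu hχ
    obtain ⟨Nl, hN1, -, hN3⟩ := hH N ℓ hℓN
    obtain ⟨h1, h2⟩ := hW σ hχ hu
    obtain ⟨h3, h4⟩ := hW σ h1 h2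
    have h5 : Kum N m (gal N σ (gal N σ u) * u ^ (ℓ : ℕ) * (Nl (gal N σ u))⁻¹)
        (act N m σ (act N m σ χ) + (ℓ : ℕ) • χ + -(tau N ℓ (ZMod m) (act N m σ χ))) :=
      hMul N m _ _ _ _ (hMul N m _ _ _ _ h4 (kum_pow hMul hPow hu _))
        (hInv N m _ _ (hN1 m _ _ h2))
    have h6 : IsPE (act N m σ (act N m σ χ) + (ℓ : ℕ) • χ +
        -(tau N ℓ (ZMod m) (act N m σ χ))) :=
      isPE_add (isPE_add h3 (isPE_nsmul hχ _)) (isPE_neg (hT N ℓ _ _ h1))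
    have hdy := hB N m _ _ h5 h6
    obtain ⟨g, hg⟩ := hK N ℓ ℓ.2 hℓN A hA' m hℓm _ (hN3 A hA' σ hσ u hdu.1) hdy
    have h0 := kum_zero_of_pow hPow hdy.1 hg
    have h7 := hUn N m _ _ _ h5 h0
    rw [← h7]
    abel
  · intro m _ σ χ hχ u hu
    exact (hW σ hχ hu).2

/-- the finite level data with its Kummer description, from Claim K. -/
theorem exists_finLevelData_kum (hK : Fermat.Agent.S18.Stmt_ClaimK) (N : ℕ) [NeZero N] :
    ∃ D : FinLevelData N, ∀ (m : ℕ) [NeZero m] (σ : GQ) (χ : Additive (Gamma0 N) →+ ZMod m),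
      IsPE χ → ∀ u : FF N, Kum N m u χ → Kum N m (gal N σ u) (D.act m σ χ) :=
  exists_finLevelData_kum_of kumMul kumInv kumPow kumUnique kumRed
    (A.kumOfDiv VAL.valMult ROOT.rootUHP)
    (B.divOfKum_of B.count B.unifFin B.unifCusp B.finOrd B.cuspOrd)
    (E.kumKer ROOT.rootUHP INV.invRat RS.rootSeries)
    (F.kumSurj Fermat.Agent.ES.Desc.desc INV.invRat)
    TP.tauPE Fermat.Agent.ES.All.stmt_Hecke FIX.congInertia' (GLUE.claimK_of hK) LM.fixedOpen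
    LM.homFinite N

theorem frickeConj_eq (M : ℕ) [NeZero M] (γ : Gamma0 M) :
    frickeConj M γ = Dict.frickeConj M γ :=
  Subtype.ext (Subtype.ext rfl)

theorem Wop_eq_Wchar (M : ℕ) [NeZero M] {A : Type*} [AddCommGroup A]
    (χ : Additive (Gamma0 M) →+ A) : Wop M χ = Dict.Wchar M χ := by
  refine AddMonoidHom.ext fun γ' => ?_
  obtain ⟨γ, rfl⟩ : ∃ γ, Additive.ofMul γ = γ' := ⟨_, rfl⟩
  rw [Wop_apply, Dict.Wchar_apply, frickeConj_eq]

/-- **`Dict.Stmt_Z` gives the contract of `Top`.** -/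
theorem exists_finLevelData_Z (hK : Fermat.Agent.S18.Stmt_ClaimK) (hZ : Dict.Stmt_Z)
    (M : ℕ) [NeZero M] :
    ∃ D : FinLevelData M, ∀ (p : ℕ) [Fact p.Prime] (r : Nat.Primes), (r : ℕ) ≠ p →
      M.factorization (r : ℕ) = 2 → Stmt_Z D p r := by
  obtain ⟨D, hD⟩ := exists_finLevelData_kum hK M
  refine ⟨D, fun p _ r hrp hr2 => ?_⟩
  obtain ⟨c, hc, h⟩ := hZ M r hr2
  refine ⟨c, hc, fun P hP n χ hχ hfix h1 h2 => ?_⟩
  have hrpn : ¬ (r : ℕ) ∣ p ^ n := fun hd =>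
    hrp ((Nat.prime_dvd_prime_iff_eq r.2 (Fact.out : p.Prime)).mp (r.2.dvd_of_dvd_pow hd))
  refine h P hP (p ^ n) hrpn χ hχ (fun σ hσ => ?_) h1 (by rw [← Wop_eq_Wchar]; exact h2)
  obtain ⟨u, hu⟩ := (F.kumSurj Fermat.Agent.ES.Desc.desc INV.invRat) M (p ^ n) χ hχ
  refine ⟨u, hu, ?_⟩
  have := hD (p ^ n) σ χ hχ u hu
  rwa [hfix σ hσ] at this

end Fermat.Agent.S36.Top
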