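import Fermat.Agent.S36.Top.NU
import Fermat.Agent.S36.Top.RepExport
import Fermat.Prelude.Def_GaloisRep_LocalConditions

/-!
# S36 / Top : the representation attached to `χ` is not unipotent on inertia at `q`
(abstract version, for an arbitrary Eichler--Shimura module)
-/

set_option autoImplicit false

open CongruenceSubgroup ModularCurve ModularCurve.Period CuspForm Polynomial
open scoped MatrixGroups TensorProduct
open Fermat.Agent.S24 (Qbar)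
open Fermat.Agent.ES.Mid (IsPE GQ)
open Fermat.Agent.ES.Rep (eigenSub mem_eigenSub eigenSub_stable eigenSub_saturated restr restr_apply
  restr_sub_mem free_sub finite_sub padicToComplete exists_eigenvector_baseChange epsO
  natCast_smul_one ESModule)
open Fermat.Agent.ES.Rep23 (QuadRel)

namespace Fermat.Agent.S36.Top

local notation "Qb" => AlgebraicClosure ℚ

theorem coeffs_of_unipotent {O : Type*} [CommRing O] {t e : O}
    (h : (X ^ 2 - C t * X + C e : O[X]) = (X - 1) ^ 2) : t = 2 ∧ e = 1 := by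
  have h1 := congrArg (fun P : O[X] => P.coeff 1) h
  have h0 := congrArg (fun P : O[X] => P.coeff 0) h
  have e2 : ((X - 1) ^ 2 : O[X]) = X ^ 2 - C 2 * X + C 1 := by
    rw [map_ofNat, map_one]; ring
  rw [e2] at h1 h0
  simp only [coeff_add, coeff_sub, coeff_X_pow, coeff_C_mul, coeff_X_one, coeff_C, coeff_X_zero]
    at h1 h0
  simp at h1 h0
  exact ⟨h1, h0⟩

/-- quadratic relation with `t = 2`, `ε = 1` -/
theorem sq_zero_of_quad {O A : Type*} [CommRing O] [Ring A] [Algebra O A] {x : A} {t e : O}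
    (h : x * x - t • x + e • (1 : A) = 0) (ht : t = 2) (he : e = 1) :
    (x - 1) * (x - 1) = 0 := by
  rw [ht, he, two_smul, one_smul] at h
  rw [← h]
  noncomm_ring

theorem padicToComplete_injective (p : ℕ) [Fact p.Prime] (𝒪' : Type) [CommRing 𝒪'] [IsDomain 𝒪']
    [CharZero 𝒪'] (φ : ℤ_[p] →+* 𝒪') : Function.Injective φ := by
  rw [RingHom.injective_iff_ker_eq_bot]
  by_contra hne
  obtain ⟨n, hn⟩ := PadicInt.ideal_eq_span_pow_p hne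
  have h1 : (p : ℤ_[p]) ^ n ∈ RingHom.ker φ := by
    rw [hn]; exact Ideal.mem_span_singleton_self _
  rw [RingHom.mem_ker, map_pow, map_natCast] at h1
  have h2 : (p : 𝒪') = 0 := eq_zero_of_pow_eq_zero h1
  exact (Fact.out : p.Prime).ne_zero (by exact_mod_cast h2)

set_option maxSynthPendingDepth 6 in
theorem rep_nonunip_of_ESModule (hFD : Fermat.Agent.FD.Stmt_FD) (hKol : Stmt_KolFree)
    (hFlat : Stmt_FlatKer)
    (p : ℕ) [Fact p.Prime] (N : ℕ) [NeZero N] (S : Finset ℕ)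
    (hpS : p ∈ S) (hNS : ∀ q : ℕ, q.Prime → q ∣ N → q ∈ S)
    (E : ESModule p N (↑S : Set ℕ))
    (𝒪' : Type) [CommRing 𝒪'] [IsDomain 𝒪'] [IsDiscreteValuationRing 𝒪']
    [IsAdicComplete (IsLocalRing.maximalIdeal 𝒪') 𝒪'] [CharZero 𝒪']
    (hp : (p : 𝒪') ∈ IsLocalRing.maximalIdeal 𝒪')
    (χ : CuspForm.heckeAlgebra N 2 (↑S : Set ℕ) →+* 𝒪') :
    ∃ r : GaloisRepAdic 𝒪',
      (∀ (ℓ : ℕ) (hℓ : ℓ.Prime) (hℓN : ¬ ℓ ∣ N) (hℓS : ℓ ∉ (↑S : Set ℕ)),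
        ∀ A : ValuationSubring Qb, A.LiesOverPrime ℓ →
          ∀ σ : GQ, A.IsFrobeniusAt σ ℓ →
            LinearMap.charpoly (r.ρ σ) =
              X ^ 2 - C (χ (CuspForm.heckeAlgebra.T hℓ hℓN hℓS)) * X + C ((ℓ : 𝒪'))) ∧
      (∀ (q : ℕ) (P : ValuationSubring Qb), P.LiesOverPrime q →
        ∀ (U Wf : Module.End ℤ_[p] E.Λ) (x0 : CuspForm.heckeAlgebra N 2 (↑S : Set ℕ)),
          (∀ x, E.ΘΛ x * U = U * E.ΘΛ x) → (∀ x, Wf * E.ΘΛ x = E.ΘΛ x * Wf) →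
          χ x0 ≠ 0 → E.ΘΛ x0 * U = 0 →
          (∀ l : E.Λ, (∀ σ ∈ P.inertiaSubgroupIn ℚ, E.ρ σ l = l) → U l = 0 → U (Wf l) = 0 →
            l = 0) →
          ¬ r.IsUnipotentOnInertiaAt q) := by
  classical
  let φ : ℤ_[p] →+* 𝒪' := padicToComplete p (IsLocalRing.maximalIdeal 𝒪') hp
  letI : Algebra ℤ_[p] 𝒪' := φ.toAlgebra
  have hφinj : Function.Injective (algebraMap ℤ_[p] 𝒪') := padicToComplete_injective p 𝒪' φ
  haveI : Module.Free ℤ_[p] E.Λ := E.isBaseChange.free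
  haveI : Module.Finite ℤ_[p] E.Λ := Module.Finite.equiv E.isBaseChange.equiv
  let bc : Module.End ℤ_[p] E.Λ →ₐ[ℤ_[p]] Module.End 𝒪' (𝒪' ⊗[ℤ_[p]] E.Λ) :=
    Module.End.baseChangeHom ℤ_[p] 𝒪' E.Λ
  have hbc : ∀ (f : Module.End ℤ_[p] E.Λ) (a : 𝒪') (v : E.Λ), bc f (a ⊗ₜ v) = a ⊗ₜ f v :=
    fun f a v => LinearMap.baseChange_tmul f a v
  let ΘV : CuspForm.heckeAlgebra N 2 (↑S : Set ℕ) →+* Module.End 𝒪' (𝒪' ⊗[ℤ_[p]] E.Λ) :=
    (bc : Module.End ℤ_[p] E.Λ →+* Module.End 𝒪' (𝒪' ⊗[ℤ_[p]] E.Λ)).comp E.ΘΛ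
  let ρV : GQ →* Module.End 𝒪' (𝒪' ⊗[ℤ_[p]] E.Λ) :=
    (bc : Module.End ℤ_[p] E.Λ →* Module.End 𝒪' (𝒪' ⊗[ℤ_[p]] E.Λ)).comp E.ρ
  have hΘV : ∀ x, ΘV x = bc (E.ΘΛ x) := fun x => rfl
  have hρV : ∀ σ, ρV σ = bc (E.ρ σ) := fun σ => rfl
  let j : E.H →ₗ[ℤ] 𝒪' ⊗[ℤ_[p]] E.Λ :=
    ((TensorProduct.mk ℤ_[p] 𝒪' E.Λ 1).restrictScalars ℤ).comp E.ι
  have hj : IsBaseChange 𝒪' j :=
    IsBaseChange.comp E.isBaseChange (TensorProduct.isBaseChange ℤ_[p] E.Λ 𝒪')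
  obtain ⟨v0, hv0, hv0e⟩ := exists_eigenvector_baseChange E.Θ E.Θ_injective j hj ΘV
    (by
      intro x h
      change bc (E.ΘΛ x) ((1 : 𝒪') ⊗ₜ E.ι h) = (1 : 𝒪') ⊗ₜ E.ι (E.Θ x h)
      rw [hbc, E.ΘΛ_ι]) χ
  let W : Submodule 𝒪' (𝒪' ⊗[ℤ_[p]] E.Λ) := eigenSub (fun x => ΘV x) (fun x => χ x)
  have hst : ∀ g, ∀ x ∈ W, ρV g x ∈ W := by
    intro g x hx
    apply eigenSub_stable (ρV g) _ hx
    intro y
    rw [hρV, hΘV, ← map_mul, ← map_mul, E.comm]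
  have hsat : ∀ a : 𝒪', a ≠ 0 → ∀ x, a • x ∈ W → x ∈ W := fun a ha x hx =>
    eigenSub_saturated a ha x hx
  haveI : Nontrivial W :=
    ⟨⟨⟨v0, mem_eigenSub.2 hv0e⟩, 0, fun h => hv0 (congrArg Subtype.val h)⟩⟩
  haveI : Module.Free 𝒪' (𝒪' ⊗[ℤ_[p]] E.Λ) := inferInstance
  haveI : Module.Finite 𝒪' (𝒪' ⊗[ℤ_[p]] E.Λ) := inferInstance
  haveI : Module.Free 𝒪' W := free_sub W
  haveI : Module.Finite 𝒪' W := finite_sub W
  let a : ℕ → 𝒪' := fun ℓ =>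
    if h : ℓ.Prime ∧ ¬ ℓ ∣ N ∧ ℓ ∉ (↑S : Set ℕ) then χ (CuspForm.heckeAlgebra.T h.1 h.2.1 h.2.2)
    else 0
  have hcontV : ∀ n : ℕ, ∃ L : IntermediateField ℚ Qb, FiniteDimensional ℚ L ∧
      ∀ σ : GQ, (∀ x ∈ L, σ x = x) → ∀ v : 𝒪' ⊗[ℤ_[p]] E.Λ, ρV σ v - v ∈
        (IsLocalRing.maximalIdeal 𝒪' ^ n) • (⊤ : Submodule 𝒪' (𝒪' ⊗[ℤ_[p]] E.Λ)) := by
    intro n
    obtain ⟨L, hL, h⟩ := E.continuous n
    refine ⟨L, hL, fun σ hσ v => ?_⟩
    induction v using TensorProduct.induction_on with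
    | zero => simp
    | tmul b v =>
      obtain ⟨w, hw⟩ := h σ hσ v
      rw [hρV, hbc, ← TensorProduct.tmul_sub, hw, TensorProduct.tmul_smul,
        ← algebraMap_smul 𝒪' ((p : ℤ_[p]) ^ n), map_pow, map_natCast]
      exact Submodule.smul_mem_smul (Ideal.pow_mem_pow hp n) Submodule.mem_top
    | add x y hx hy =>
      rw [map_add, add_sub_add_comm]
      exact Submodule.add_mem _ hx hy
  obtain ⟨r, t, hquad, hchar, hr1⟩ := exists_galoisRepAdic_export p hFD hp φ W (restr ρV W hst)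
    (by
      intro n
      obtain ⟨L, hL, h⟩ := hcontV n
      exact ⟨L, hL, fun σ hσ v => restr_sub_mem W hst hsat _ σ (h σ hσ) v⟩)
    S hpS a
    (by
      intro ℓ hℓ hℓS A hA σ hσ
      have hℓN : ¬ ℓ ∣ N := fun h => hℓS (hNS ℓ hℓ h)
      have hℓS' : ℓ ∉ (↑S : Set ℕ) := by simpa using hℓS
      have hℓp : ℓ ≠ p := fun h => hℓS (h ▸ hpS)
      have haℓ : a ℓ = χ (CuspForm.heckeAlgebra.T hℓ hℓN hℓS') := dif_pos ⟨hℓ, hℓN, hℓS'⟩
      have h1 := congrArg bc (E.eichlerShimura ℓ hℓ hℓN hℓS' hℓp A hA σ hσ)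
      rw [map_add, map_sub, map_mul, map_mul, natCast_smul_one, map_natCast, map_zero,
        ← hρV, ← hΘV] at h1
      ext w
      have h2 := congrArg (fun f : Module.End 𝒪' (𝒪' ⊗[ℤ_[p]] E.Λ) => f (w : 𝒪' ⊗[ℤ_[p]] E.Λ)) h1
      have h3 : ΘV (CuspForm.heckeAlgebra.T hℓ hℓN hℓS') (ρV σ w) =
          χ (CuspForm.heckeAlgebra.T hℓ hℓN hℓS') • ρV σ w :=
        mem_eigenSub.1 (hst σ w w.2) _
      simp only [LinearMap.add_apply, LinearMap.sub_apply, Module.End.mul_apply, h3,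
        LinearMap.zero_apply] at h2
      rw [haℓ]
      simp only [LinearMap.add_apply, LinearMap.sub_apply, Module.End.mul_apply,
        LinearMap.smul_apply, Module.End.one_apply, LinearMap.zero_apply, Submodule.coe_add,
        Submodule.coe_sub, Submodule.coe_smul, restr_apply, Submodule.coe_zero]
      rw [← h2]
      congr 1
      rw [Nat.cast_smul_eq_nsmul]
      simp)
  refine ⟨r, ?_, ?_⟩
  · intro ℓ hℓ hℓN hℓS A hA σ hσ
    have haℓ : a ℓ = χ (CuspForm.heckeAlgebra.T hℓ hℓN hℓS) := dif_pos ⟨hℓ, hℓN, hℓS⟩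
    rw [hr1 ℓ hℓ (by simpa using hℓS) A hA σ hσ, haℓ]
  · intro q P hP U Wf x0 hU hWf hx0 hx0U hZ huni
    have hsq : ∀ σ ∈ P.inertiaSubgroupIn ℚ,
        (restr ρV W hst σ - (1 : Module.End 𝒪' W)) * (restr ρV W hst σ - (1 : Module.End 𝒪' W))
          = 0 := by
      intro σ hσ
      have h1 := huni P hP σ hσ
      have h2 := (hchar σ).symm.trans h1
      obtain ⟨ht, he⟩ := coeffs_of_unipotent h2
      exact sq_zero_of_quad (hquad σ) ht he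
    obtain ⟨w, hw0, hwfix⟩ := hKol 𝒪' W GQ (restr ρV W hst) (P.inertiaSubgroupIn ℚ) hsq
    apply hw0
    apply Subtype.ext
    refine eigen_fixed_eq_zero hFlat ℤ_[p] 𝒪' E.Λ (heckeAlgebra N 2 (↑S : Set ℕ)) GQ hφinj
      E.ρ E.ΘΛ χ U Wf hU hWf x0 hx0 hx0U (P.inertiaSubgroupIn ℚ) hZ w.1 ?_ ?_
    · intro x
      exact mem_eigenSub.1 w.2 x
    · intro σ hσ
      exact congrArg Subtype.val (hwfix σ hσ)

end Fermat.Agent.S36.Top
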