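import Fermat.Agent.S36.Top.Interface

/-!
# S36 / Top : (FLAT) the common kernel of a family of endomorphisms after base change
-/

set_option autoImplicit false

open scoped TensorProduct

namespace Fermat.Agent.S36.Top.FK

/-- the rows of the matrices of a family with trivial common kernel span everything over the
fraction field. -/
theorem span_rows_eq_top {R Λ J ι : Type} [CommRing R] [IsDomain R] [AddCommGroup Λ] [Module R Λ]
    [Fintype ι] [DecidableEq ι] (b : Module.Basis ι R Λ) (f : J → Module.End R Λ)
    (hf : ∀ x : Λ, (∀ j, f j x = 0) → x = 0) :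
    Submodule.span (FractionRing R) (Set.range (fun jk : J × ι =>
      (fun i => algebraMap R (FractionRing R) (b.repr (f jk.1 (b i)) jk.2)))) = ⊤ := by
  by_contra hne
  obtain ⟨g, hg0, hg⟩ := Submodule.exists_le_ker_of_lt_top _ (lt_top_iff_ne_top.2 hne)
  apply hg0
  obtain ⟨d, hd⟩ := IsLocalization.exist_integer_multiples_of_finite (nonZeroDivisors R)
    (fun i : ι => g (fun j => if i = j then 1 else 0))
  choose y hy using hd
  have hinj := IsFractionRing.injective R (FractionRing R)
  have hl : (∑ i, y i • b i) = 0 := by
    apply hf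
    intro j
    apply b.ext_elem
    intro k
    apply hinj
    have h1 : g (fun i => algebraMap R (FractionRing R) (b.repr (f j (b i)) k)) = 0 :=
      hg (Submodule.subset_span ⟨(j, k), rfl⟩)
    rw [LinearMap.pi_apply_eq_sum_univ] at h1
    rw [map_sum, map_sum, Finsupp.finsetSum_apply, map_sum, map_zero, Finsupp.zero_apply, map_zero]
    have h2 : ∀ i, algebraMap R (FractionRing R) (b.repr (f j (y i • b i)) k) =
        (d : R) • (algebraMap R (FractionRing R) (b.repr (f j (b i)) k) •
          g (fun j => if i = j then 1 else 0)) := by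
      intro i
      rw [map_smul, map_smul, Finsupp.smul_apply, smul_eq_mul, map_mul, hy i, smul_eq_mul,
        Algebra.smul_def, Algebra.smul_def]
      ring
    rw [Finset.sum_congr rfl fun i _ => h2 i, ← Finset.smul_sum, h1, smul_zero]
  have hy0 : ∀ i, y i = 0 := by
    intro i
    have := congrFun (b.repr_sum_self y) i
    rw [hl, map_zero, Finsupp.zero_apply] at this
    exact this.symm
  have hx0 : ∀ i : ι, g (fun j => if i = j then 1 else 0) = 0 := by
    intro i
    have h1 := hy i
    rw [hy0 i, map_zero, Algebra.smul_def] at h1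
    have hd0 : algebraMap R (FractionRing R) (d : R) ≠ 0 := by
      rw [Ne, map_eq_zero_iff _ hinj]
      exact nonZeroDivisors.ne_zero d.2
    exact (mul_eq_zero.1 h1.symm).resolve_left hd0
  refine LinearMap.ext fun w => ?_
  rw [LinearMap.pi_apply_eq_sum_univ g w, LinearMap.zero_apply]
  exact Finset.sum_eq_zero fun i _ => by rw [hx0 i, smul_zero]

theorem flatKer : Stmt_FlatKer := by
  intro R R' Λ J _ _ _ _ _ _ _ _ _ hφ f hf v hv
  classical
  let b := Module.Free.chooseBasis R Λ
  have htop := span_rows_eq_top b f hf
  let ψ : FractionRing R →+* FractionRing R' := IsFractionRing.map hφ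
  have hψ : ∀ r : R, ψ (algebraMap R (FractionRing R) r) =
      algebraMap R' (FractionRing R') (algebraMap R R' r) := fun r => IsLocalization.map_eq _ r
  have hrow : ∀ j k, ∑ i, algebraMap R R' (b.repr (f j (b i)) k) * (b.baseChange R').repr v i = 0 := by
    intro j k
    have h1 := hv j
    rw [← (b.baseChange R').sum_repr v, map_sum] at h1
    have h2 := congrArg (fun z => (b.baseChange R').repr z k) h1
    simp only [map_sum, map_smul, Module.Basis.baseChange_apply, LinearMap.baseChange_tmul,
      Finsupp.finsetSum_apply, Finsupp.smul_apply, Module.Basis.baseChange_repr_tmul, map_zero,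
      Finsupp.zero_apply, smul_eq_mul, Algebra.smul_def, mul_one] at h2
    rw [← h2]
    exact Finset.sum_congr rfl fun i _ => mul_comm _ _
  have hP : ∀ w ∈ Submodule.span (FractionRing R) (Set.range (fun jk : J × _ =>
      (fun i => algebraMap R (FractionRing R) (b.repr (f jk.1 (b i)) jk.2)))),
      ∑ i, ψ (w i) * algebraMap R' (FractionRing R') ((b.baseChange R').repr v i) = 0 := by
    intro w hw
    induction hw using Submodule.span_induction with
    | mem w hw =>
      obtain ⟨⟨j, k⟩, rfl⟩ := hw
      simp only [hψ, ← map_mul, ← map_sum, hrow, map_zero]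
    | zero => simp
    | add x y _ _ hx hy =>
      simp only [Pi.add_apply, map_add, add_mul, Finset.sum_add_distrib, hx, hy, add_zero]
    | smul c x _ hx =>
      simp only [Pi.smul_apply, smul_eq_mul, map_mul, mul_assoc, ← Finset.mul_sum, hx, mul_zero]
  apply (b.baseChange R').ext_elem
  intro i
  rw [map_zero, Finsupp.zero_apply]
  have h1 := hP (Pi.single i 1) (by rw [htop]; trivial)
  apply IsFractionRing.injective R' (FractionRing R')
  rw [map_zero, ← h1, Finset.sum_eq_single i]
  · simp
  · intro j _ hj
    simp [Pi.single_eq_of_ne hj]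
  · intro h
    exact absurd (Finset.mem_univ i) h

end Fermat.Agent.S36.Top.FK
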