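import Mathlib
import Fermat.Agent.S36.Top.Interface
import Fermat.Agent.S16.HeckeHomData
import Fermat.Agent.ES.Mid.HA1

/-!
# S36 / Top : the Fricke involution commutes with `T_ℓ` (`ℓ ∤ M`) on characters
-/

set_option autoImplicit false

open Matrix.SpecialLinearGroup CongruenceSubgroup ModularForm
open ModularCurve ModularCurve.Period
open scoped MatrixGroups OnePoint
open P2MW.S_ModularForm_heckeT_slash_eq_self_of_mem_Gamma0.ModularForm.HeckeSlashInvariance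
open Fermat.Agent.S16.HH

namespace Fermat.Agent.S36.Top.FC

/-- the matrix `w_M = (0 -1; M 0)` -/
noncomputable def matW (M : ℕ) [NeZero M] : GL (Fin 2) ℝ :=
  Matrix.GeneralLinearGroup.mkOfDetNeZero !![0, -1; (M : ℝ), 0] (by
    rw [Matrix.det_fin_two_of]
    have : (M : ℝ) ≠ 0 := by exact_mod_cast NeZero.ne M
    simpa using this)

theorem val_matW (M : ℕ) [NeZero M] :
    (matW M : Matrix (Fin 2) (Fin 2) ℝ) = !![0, -1; (M : ℝ), 0] := rfl

/-- conjugation by `w_M` -/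
noncomputable def conjW (M : ℕ) [NeZero M] : GL (Fin 2) ℝ →* GL (Fin 2) ℝ :=
  (MulAut.conj (matW M)).toMonoidHom

theorem conjW_eq_of (M : ℕ) [NeZero M] {g X : GL (Fin 2) ℝ} (h : matW M * g = X * matW M) :
    conjW M g = X := by
  show matW M * g * (matW M)⁻¹ = X
  rw [h, mul_inv_cancel_right]

theorem val_jG (N : ℕ) (γ : ↥(Gamma0 N)) :
    (jG N γ : Matrix (Fin 2) (Fin 2) ℝ) =
      !![(((γ : SL(2, ℤ)) 0 0 : ℤ) : ℝ), (((γ : SL(2, ℤ)) 0 1 : ℤ) : ℝ);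
        (((γ : SL(2, ℤ)) 1 0 : ℤ) : ℝ), (((γ : SL(2, ℤ)) 1 1 : ℤ) : ℝ)] := by
  ext i j
  rw [jG_apply, mapGL_entry]
  fin_cases i <;> fin_cases j <;> rfl

theorem jG_frickeConj (M : ℕ) [NeZero M] (γ : ↥(Gamma0 M)) :
    jG M (frickeConj M γ) = conjW M (jG M γ) := by
  symm
  apply conjW_eq_of
  have hM : (M : ℤ) ≠ 0 := by exact_mod_cast NeZero.ne M
  obtain ⟨c, hc⟩ := dvd_of_mem γ
  have h : ∀ i j, ((frickeConj M γ : Gamma0 M) : SL(2, ℤ)) i j = frickeMat M (γ : SL(2, ℤ)) i j :=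
    fun i j => rfl
  apply Units.ext
  rw [Matrix.GeneralLinearGroup.coe_mul, Matrix.GeneralLinearGroup.coe_mul, val_jG, val_jG,
    val_matW]
  simp only [h, frickeMat]
  rw [hc, Int.mul_ediv_cancel_left _ hM]
  ext i j
  fin_cases i <;> fin_cases j <;> simp only [Matrix.mul_apply, Fin.sum_univ_two] <;> simp <;> ring

section Perm

variable (M ℓ : ℕ) [Fact ℓ.Prime]

/-- the involution of `ℙ¹(𝔽_ℓ)` induced by `w_M`: `∞ ↔ 0`, `b ↦ -1/(M b)`. -/
def nuFun (x : OnePoint (ZMod ℓ)) : OnePoint (ZMod ℓ) :=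
  x.elim ((0 : ZMod ℓ) : OnePoint (ZMod ℓ))
    (fun b => if b = 0 then ∞ else ((-((M : ZMod ℓ) * b)⁻¹ : ZMod ℓ) : OnePoint (ZMod ℓ)))

theorem nuFun_infty : nuFun M ℓ ∞ = ((0 : ZMod ℓ) : OnePoint (ZMod ℓ)) := rfl

theorem nuFun_zero : nuFun M ℓ ((0 : ZMod ℓ) : OnePoint (ZMod ℓ)) = ∞ := by
  simp [nuFun]

theorem nuFun_coe {b : ZMod ℓ} (hb : b ≠ 0) :
    nuFun M ℓ (b : OnePoint (ZMod ℓ)) = ((-((M : ZMod ℓ) * b)⁻¹ : ZMod ℓ) : OnePoint (ZMod ℓ)) := by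
  simp [nuFun, hb]

variable {M ℓ}

theorem nuFun_involutive (hM : (M : ZMod ℓ) ≠ 0) : Function.Involutive (nuFun M ℓ) := by
  intro x
  induction x using OnePoint.rec with
  | infty => rw [nuFun_infty, nuFun_zero]
  | coe b =>
    by_cases hb : b = 0
    · rw [hb, nuFun_zero, nuFun_infty]
    · have h1 : (-((M : ZMod ℓ) * b)⁻¹ : ZMod ℓ) ≠ 0 :=
        neg_ne_zero.2 (inv_ne_zero (mul_ne_zero hM hb))
      rw [nuFun_coe M ℓ hb, nuFun_coe M ℓ h1]
      congr 1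
      field_simp

end Perm

theorem key_mat (M : ℕ) [NeZero M] {ℓ : ℕ} (hℓ0 : ℓ ≠ 0) (β β' : ℕ) (e : ℤ)
    (he : (M : ℤ) * β * β' + 1 = ℓ * e) (t : ↥(Gamma0 M))
    (e00 : (t : SL(2, ℤ)) 0 0 = (ℓ : ℤ)) (e01 : (t : SL(2, ℤ)) 0 1 = -(β' : ℤ))
    (e10 : (t : SL(2, ℤ)) 1 0 = -((M : ℤ) * β)) (e11 : (t : SL(2, ℤ)) 1 1 = e) :
    matW M * heckeMatrix ℓ β = jG M t * heckeMatrix ℓ β' * matW M := by
  have heR : (M : ℝ) * β * β' + 1 = ℓ * e := by exact_mod_cast he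
  apply Units.ext
  rw [Matrix.GeneralLinearGroup.coe_mul, Matrix.GeneralLinearGroup.coe_mul,
    Matrix.GeneralLinearGroup.coe_mul, val_matW, val_jG, val_heckeMatrix hℓ0,
    val_heckeMatrix hℓ0, e00, e01, e10, e11]
  ext i j
  fin_cases i <;> fin_cases j <;> simp only [Matrix.mul_apply, Fin.sum_univ_two] <;> simp
  · left
    ring
  · linear_combination (M : ℝ) * heR

theorem exists_t (M : ℕ) [NeZero M] (ℓ : ℕ) [Fact ℓ.Prime] (hM : (M : ZMod ℓ) ≠ 0)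
    (x : OnePoint (ZMod ℓ)) :
    ∃ t : ↥(Gamma0 M), conjW M (heckeRep ℓ x) = jG M t * heckeRep ℓ (nuFun M ℓ x) := by
  have hℓ0 : ℓ ≠ 0 := (Fact.out : ℓ.Prime).ne_zero
  induction x using OnePoint.rec with
  | infty =>
    refine ⟨1, conjW_eq_of M ?_⟩
    rw [nuFun_infty, map_one, one_mul]
    show matW M * heckeDiagMatrix ℓ = heckeMatrix ℓ (0 : ZMod ℓ).val * matW M
    apply Units.ext
    rw [Matrix.GeneralLinearGroup.coe_mul, Matrix.GeneralLinearGroup.coe_mul, val_matW,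
      val_heckeDiagMatrix hℓ0, val_heckeMatrix hℓ0]
    ext i j
    fin_cases i <;> fin_cases j <;> simp only [Matrix.mul_apply, Fin.sum_univ_two] <;> simp <;>
      ring
  | coe b =>
    by_cases hb : b = 0
    · refine ⟨1, conjW_eq_of M ?_⟩
      rw [hb, nuFun_zero, map_one, one_mul]
      show matW M * heckeMatrix ℓ (0 : ZMod ℓ).val = heckeDiagMatrix ℓ * matW M
      apply Units.ext
      rw [Matrix.GeneralLinearGroup.coe_mul, Matrix.GeneralLinearGroup.coe_mul, val_matW,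
        val_heckeDiagMatrix hℓ0, val_heckeMatrix hℓ0]
      ext i j
      fin_cases i <;> fin_cases j <;> simp only [Matrix.mul_apply, Fin.sum_univ_two] <;> simp
    · rw [nuFun_coe M ℓ hb]
      set b' : ZMod ℓ := -((M : ZMod ℓ) * b)⁻¹ with hb'
      have hdvd : (ℓ : ℤ) ∣ (M : ℤ) * b.val * b'.val + 1 := by
        rw [← ZMod.intCast_zmod_eq_zero_iff_dvd]
        push_cast
        rw [ZMod.natCast_zmod_val, ZMod.natCast_zmod_val, hb']
        have : (M : ZMod ℓ) * b ≠ 0 := mul_ne_zero hM hb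
        field_simp
        ring
      obtain ⟨e, he⟩ := hdvd
      let tS : SL(2, ℤ) := ⟨!![(ℓ : ℤ), -(b'.val : ℤ); -((M : ℤ) * b.val), e], by
        rw [Matrix.det_fin_two_of]
        linear_combination -he⟩
      have htS : tS ∈ Gamma0 M := mem_Gamma0_of_dvd (by
        show (M : ℤ) ∣ -((M : ℤ) * b.val)
        exact (Dvd.intro _ rfl).neg_right)
      refine ⟨⟨tS, htS⟩, conjW_eq_of M ?_⟩
      exact key_mat M hℓ0 b.val b'.val e he ⟨tS, htS⟩ rfl rfl rfl rfl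

/-- (FRICKE-COMM). -/
theorem frickeComm : Stmt_FrickeComm := by
  intro M _ ℓ hℓM A _ χ
  obtain ⟨l, hl⟩ := ℓ
  have : Fact l.Prime := ⟨hl⟩
  have hM : (M : ZMod l) ≠ 0 := by
    rw [Ne, ZMod.natCast_eq_zero_iff]
    exact hℓM
  rw [Fermat.Agent.ES.Mid.HA1.tau_eq M hl hℓM, Fermat.Agent.ES.Mid.HA1.tau_eq M hl hℓM]
  choose t ht using exists_t M l hM
  exact (dataT M hl hℓM).op_comp_of_twist (conjW M) (frickeConj M) (jG_frickeConj M)
    (nuFun_involutive hM).toPerm t ht χ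

end Fermat.Agent.S36.Top.FC
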