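import Fermat.Agent.S36.Top.Interface
import Fermat.Agent.S36.Kolchin

/-!
# S36 / TOP-KOL : Kolchin for finite free modules over a domain
-/

set_option autoImplicit false

namespace Fermat.Agent.S36.Top.KF

open TensorProduct

section

variable {O W : Type} [CommRing O] [IsDomain O] [AddCommGroup W] [Module O W] [Module.Free O W]

/-- `w ↦ 1 ⊗ w` is injective. -/
theorem one_tmul_eq_zero_iff (w : W) : (1 : FractionRing O) ⊗ₜ[O] w = 0 ↔ w = 0 := by
  constructor
  · intro h
    have h1 : TensorProduct.mk O (FractionRing O) W 1 w = 0 := h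
    obtain ⟨c, hc⟩ := (IsLocalizedModule.eq_zero_iff (nonZeroDivisors O)
      (TensorProduct.mk O (FractionRing O) W 1)).1 h1
    have hc' : (c : O) • w = 0 := hc
    exact (smul_eq_zero.mp hc').resolve_left (nonZeroDivisors.coe_ne_zero c)
  · rintro rfl
    exact tmul_zero _ _

end

theorem kolFree : Stmt_KolFree := by
  intro O W G _ _ _ _ _ _ _ _ ρ I h
  let K := FractionRing O
  let ρK : G →* Module.End K (K ⊗[O] W) :=
    (Module.End.baseChangeHom O K W : Module.End O W →* Module.End K (K ⊗[O] W)).comp ρ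
  have hρK : ∀ (g : G) (a : K) (w : W), ρK g (a ⊗ₜ[O] w) = a ⊗ₜ[O] ρ g w :=
    fun g a w => LinearMap.baseChange_tmul (ρ g) a w
  have hnt : Nontrivial (K ⊗[O] W) := by
    obtain ⟨w, hw⟩ := exists_ne (0 : W)
    exact ⟨⟨(1 : K) ⊗ₜ[O] w, 0, fun h0 => hw ((one_tmul_eq_zero_iff w).1 h0)⟩⟩
  have hsq : ∀ g ∈ I.toSubmonoid, (ρK g - 1) * (ρK g - 1) = 0 := by
    intro g hg
    have h1 : ρK g - 1 = Module.End.baseChangeHom O K W (ρ g - 1) := by
      rw [map_sub, map_one]
      rfl
    rw [h1, ← map_mul, h g hg, map_zero]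
  obtain ⟨v, hv0, hfix⟩ := kolchin_hom ρK I.toSubmonoid hsq
  obtain ⟨⟨w, s⟩, hws⟩ := IsLocalizedModule.surj (nonZeroDivisors O)
    (TensorProduct.mk O K W 1) v
  have hws' : (s : O) • v = (1 : K) ⊗ₜ[O] w := hws
  refine ⟨w, ?_, fun g hg => ?_⟩
  · rintro rfl
    rw [tmul_zero] at hws'
    have h2 : (algebraMap O K (s : O)) • v = 0 := by
      rw [algebraMap_smul]
      exact hws'
    rcases smul_eq_zero.mp h2 with h3 | h3
    · exact nonZeroDivisors.coe_ne_zero s
        ((map_eq_zero_iff _ (IsFractionRing.injective O K)).1 h3)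
    · exact hv0 h3
  · rw [← sub_eq_zero, ← one_tmul_eq_zero_iff (O := O), tmul_sub, sub_eq_zero, ← hρK, ← hws',
      LinearMap.map_smul_of_tower, hfix g hg]

end Fermat.Agent.S36.Top.KF
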