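import Fermat.Agent.S36.Top.Interface

/-!
# S36 / Top : facts on `Λ = Hom_par(Γ₀(M), ℤ_p)`: Fricke, limit of (Z), the annihilator
-/

set_option autoImplicit false
set_option linter.unusedSectionVars false

open CongruenceSubgroup ModularCurve ModularCurve.Period CuspForm
open scoped MatrixGroups TensorProduct
open Fermat.Agent.S16.HH
open Fermat.Agent.S24 (Qbar)
open Fermat.Agent.ES.Mid (IsPE GQ)
open Fermat.Agent.ES.Coh

namespace Fermat.Agent.S36.Top

variable (M : ℕ) [NeZero M] (p : ℕ) [hp : Fact p.Prime]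

/-- the Fricke involution on `Λ` -/
noncomputable def WLam : Module.End ℤ_[p] (Lam M p) where
  toFun χ := ⟨Wop M χ.1, Wop_parabolic M χ.2⟩
  map_add' _ _ := rfl
  map_smul' _ _ := rfl

theorem WLam_coe (χ : Lam M p) : (WLam M p χ).1 = Wop M χ.1 := rfl

theorem redP_WLam (χ : Lam M p) (n : ℕ) :
    redP p n (WLam M p χ).1 = Wop M (redP p n χ.1) := rfl

theorem redP_zero (n : ℕ) : redP p n (0 : Additive (Gamma0 M) →+ ℤ_[p]) = 0 := by
  ext x; simp [redP_apply]

variable {M}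

/-- **(Z) in the limit.** -/
theorem Z_lim (D : FinLevelData M) (r : Nat.Primes) (hZ : Stmt_Z D p r)
    (P : ValuationSubring Qbar) (hP : P.LiesOverPrime r) (l : Lam M p)
    (hfix : ∀ σ ∈ P.inertiaSubgroupIn ℚ, rho D p σ l = l) (hU : tauLam p r l = 0)
    (hUW : tauLam p r (WLam M p l) = 0) : l = 0 := by
  obtain ⟨c, hc, h⟩ := hZ
  have h1 : ∀ n, c • redP p n l.1 = 0 := by
    intro n
    refine h P hP n _ (isPE_redP p l n) (fun σ hσ => ?_) ?_ ?_
    · rw [← redP_rho, hfix σ hσ]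
    · have := redP_tauLam p r l n
      rw [hU] at this
      rw [Fermat.Agent.ES.Mid.tau, ← this]
      exact redP_zero M p n
    · have := redP_tauLam p r (WLam M p l) n
      rw [hUW, redP_WLam] at this
      rw [Fermat.Agent.ES.Mid.tau, ← this]
      exact redP_zero M p n
  have h2 : c • l.1 = 0 := by
    apply redP_ext p
    intro n
    rw [redP_nsmul, h1 n, redP_zero]
  apply Subtype.ext
  refine AddMonoidHom.ext fun γ => ?_
  have h3 : c • l.1 γ = 0 := DFunLike.congr_fun h2 γ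
  exact (smul_eq_zero_iff_right hc).mp h3

variable (M)

theorem castH_tauH (r : Nat.Primes) (h : H M) (f g : CuspForm (Gamma0 M) 2)
    (hfg : castH M h = periodHomPair M (f, g)) :
    castH M (tauH M r h) =
      periodHomPair M ((heckeFormsGen M 2 r).1 f, (heckeFormsGen M 2 r).1 g) := by
  rw [castH_apply, tauH_coe, comp_tau, ← castH_apply, hfg, tau_periodHomPair]

theorem Theta0_tauH_eq_zero (S : Set ℕ) (x : heckeAlgebra M 2 S) (r : Nat.Primes)
    (hx : ∀ f, x.1 ((heckeFormsGen M 2 r).1 f) = 0) (h : H M) :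
    Theta0 M S x (tauH M r h) = 0 := by
  apply castH_injective M
  obtain ⟨⟨f, g⟩, hfg⟩ := castH_mem_range M h
  rw [Theta0_spec M S x _ _ _ (castH_tauH M r h f g hfg.symm), hx, hx, map_zero]
  exact map_zero (periodHomPair M)

theorem Theta0_tauH_comm (S : Set ℕ) (x : heckeAlgebra M 2 S) (r : Nat.Primes) (h : H M) :
    Theta0 M S x (tauH M r h) = tauH M r (Theta0 M S x h) := by
  apply castH_injective M
  obtain ⟨⟨f, g⟩, hfg⟩ := castH_mem_range M h
  rw [Theta0_spec M S x _ _ _ (castH_tauH M r h f g hfg.symm),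
    castH_tauH M r _ _ _ (Theta0_spec M S x h f g hfg.symm)]
  have hx : x.1 ∈ heckeAlgebra M 2 ∅ := heckeAlgebra_mono (Set.empty_subset S) x.2
  have hc : ∀ f, x.1 ((heckeFormsGen M 2 r).1 f) = (heckeFormsGen M 2 r).1 (x.1 f) := by
    intro f
    have := mul_comm (⟨x.1, hx⟩ : heckeAlgebra M 2 ∅) (heckeFormsGen M 2 r)
    exact LinearMap.congr_fun (congrArg Subtype.val this) f
  rw [hc, hc]

theorem ThetaLam_mul_tauLam_eq_zero (S : Set ℕ) (x : heckeAlgebra M 2 S) (r : Nat.Primes)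
    (hx : ∀ f, x.1 ((heckeFormsGen M 2 r).1 f) = 0) :
    ThetaLam M p S x * tauLam p r = 0 := by
  refine (isBaseChange_castLam M p).algHom_ext _ _ fun h => ?_
  rw [Module.End.mul_apply, ← castLam_tauH, ThetaLam_castLam, Theta0_tauH_eq_zero M S x r hx,
    map_zero, LinearMap.zero_apply]

theorem ThetaLam_tauLam_comm (S : Set ℕ) (x : heckeAlgebra M 2 S) (r : Nat.Primes) :
    ThetaLam M p S x * tauLam p r = tauLam p r * ThetaLam M p S x := by
  refine (isBaseChange_castLam M p).algHom_ext _ _ fun h => ?_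
  rw [Module.End.mul_apply, Module.End.mul_apply, ← castLam_tauH, ThetaLam_castLam,
    ThetaLam_castLam, Theta0_tauH_comm, castLam_tauH]

/-- an endomorphism commuting with all `τ_ℓ`, `ℓ ∤ M`, commutes with the Hecke algebra away from
`S ⊇ {q ∣ M}` -/
theorem comm_ThetaLam_of_comm_tau (F : Module.End ℤ_[p] (Lam M p))
    (hF : ∀ ℓ : Nat.Primes, ¬ (ℓ : ℕ) ∣ M → F * tauLam p ℓ = tauLam p ℓ * F) (S : Set ℕ)
    (hNS : ∀ q : ℕ, q.Prime → q ∣ M → q ∈ S) (x : heckeAlgebra M 2 S) :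
    F * ThetaLam M p S x = ThetaLam M p S x * F := by
  obtain ⟨x, hx⟩ := x
  induction hx using Algebra.adjoin_induction with
  | mem t ht =>
    rcases ht with ⟨ℓ, hℓ, hℓN, hℓS, rfl⟩ | ⟨q, hqN, hq, hqS, rfl⟩
    · have h2 : ThetaLam M p S ⟨heckeTLin 2 hℓ hℓN, Algebra.subset_adjoin
          (Or.inl ⟨ℓ, hℓ, hℓN, hℓS, rfl⟩)⟩ = tauLam p (⟨ℓ, hℓ⟩ : Nat.Primes) :=
        ThetaLam_T M p S hℓ hℓN hℓS
      rw [h2]
      exact hF (⟨ℓ, hℓ⟩ : Nat.Primes) hℓN
    · exact absurd (hNS q hq hqN) hqS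
  | algebraMap r =>
    have : (⟨algebraMap ℤ _ r, Subalgebra.algebraMap_mem _ r⟩ : heckeAlgebra M 2 S)
        = algebraMap ℤ (heckeAlgebra M 2 S) r := rfl
    rw [this]
    have h2 : ThetaLam M p S (algebraMap ℤ (heckeAlgebra M 2 S) r)
        = (r : Module.End ℤ_[p] (Lam M p)) := by
      rw [eq_intCast (algebraMap ℤ (heckeAlgebra M 2 S)) r, map_intCast]
    rw [h2]
    exact (Int.cast_commute r F).symm.eq
  | add a b ha hb iha ihb =>
    have : (⟨a + b, Subalgebra.add_mem _ ha hb⟩ : heckeAlgebra M 2 S) = ⟨a, ha⟩ + ⟨b, hb⟩ := rfl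
    rw [this, map_add, mul_add, add_mul, iha, ihb]
  | mul a b ha hb iha ihb =>
    have : (⟨a * b, Subalgebra.mul_mem _ ha hb⟩ : heckeAlgebra M 2 S) = ⟨a, ha⟩ * ⟨b, hb⟩ := rfl
    rw [this, map_mul, ← mul_assoc, iha, mul_assoc, ihb, mul_assoc]

theorem WLam_tauLam_comm (hFC : Stmt_FrickeComm) (ℓ : Nat.Primes) (hℓ : ¬ (ℓ : ℕ) ∣ M) :
    WLam M p * tauLam p ℓ = tauLam p ℓ * WLam M p := by
  refine LinearMap.ext fun χ => Subtype.ext ?_
  show Wop M (tau M ℓ ℤ_[p] χ.1) = tau M ℓ ℤ_[p] (Wop M χ.1)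
  exact (hFC M ℓ hℓ ℤ_[p] χ.1).symm

theorem WLam_ThetaLam_comm (hFC : Stmt_FrickeComm) (S : Set ℕ)
    (hNS : ∀ q : ℕ, q.Prime → q ∣ M → q ∈ S) (x : heckeAlgebra M 2 S) :
    WLam M p * ThetaLam M p S x = ThetaLam M p S x * WLam M p :=
  comm_ThetaLam_of_comm_tau M p _ (WLam_tauLam_comm M p hFC) S hNS x

end Fermat.Agent.S36.Top
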