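import Fermat.Agent.S36.Top.Interface
import Fermat.Agent.S22

/-!
# S36 / Top / Small : `Stmt_IotaInj`, `Stmt_ExistsVal`
-/

set_option autoImplicit false

open CuspForm
open Fermat.Agent.S24 (Qbar)

namespace Fermat.Agent.S36.Top.SM

/-- a ring homomorphism from a domain integral over `ℤ` to a domain of characteristic zero is
injective. -/
theorem injective_of_integral {R O' : Type*} [CommRing R] [IsDomain R]
    [Algebra.IsIntegral ℤ R] [CommRing O'] [IsDomain O'] [CharZero O'] (f : R →+* O') :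
    Function.Injective f := by
  rw [RingHom.injective_iff_ker_eq_bot]
  apply Ideal.eq_bot_of_comap_eq_bot (R := ℤ)
  rw [eq_bot_iff]
  intro n hn
  rw [Ideal.mem_comap, RingHom.mem_ker, eq_intCast, map_intCast] at hn
  simpa using hn

theorem iotaInj : Stmt_IotaInj := by
  intro M _ S chig O' _ _ _ iota
  have hfin : Module.Finite ℤ (CuspForm.heckeAlgebra M 2 S) := Fermat.Agent.S22.result M 2 S
  have hint : Algebra.IsIntegral ℤ chig.range := by
    refine ⟨?_⟩
    rintro ⟨_, x, rfl⟩
    have h1 : IsIntegral ℤ x := Algebra.IsIntegral.isIntegral x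
    exact h1.map chig.rangeRestrict.toIntAlgHom
  exact injective_of_integral iota

theorem existsVal : Stmt_ExistsVal := by
  intro l hl
  let A : Subring Qbar := (Int.castRingHom Qbar).range
  let lA : A := ⟨(l : Qbar), ⟨(l : ℤ), by simp⟩⟩
  have hI : Ideal.span {lA} ≠ ⊤ := by
    intro h
    rw [Ideal.span_singleton_eq_top] at h
    obtain ⟨⟨_, ⟨n, rfl⟩⟩, hn⟩ := isUnit_iff_exists_inv.mp h
    have h1 : ((l : ℤ) * n : ℤ) = 1 := by
      have h2 := congrArg Subtype.val hn
      have h3 : ((l : Qbar)) * ((n : ℤ) : Qbar) = 1 := h2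
      exact_mod_cast h3
    have h4 : IsUnit (l : ℤ) := IsUnit.of_mul_eq_one _ h1
    exact (Nat.prime_iff_prime_int.mp hl).not_isUnit h4
  obtain ⟨V, -, hV⟩ := Ideal.image_subset_nonunits_valuationSubring _ hI
  exact ⟨V, hV ⟨lA, Ideal.subset_span rfl, rfl⟩⟩

end Fermat.Agent.S36.Top.SM
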