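import Fermat.Agent.S36.Top.Core
import Fermat.Agent.S36.Top.Lam
import Fermat.Agent.S36.Top.Act
import Fermat.Agent.S36.Top.FrickeComm
import Fermat.Agent.S36.Top.KolFree
import Fermat.Agent.S36.Top.FlatKer
import Fermat.Agent.S36.Top.Small
import Fermat.Agent.SMO.Newform

/-!
# S36 / Top : the frozen statement S36 from the contract `(Z)` (`Dict.Stmt_Z`),
Frobenius density and Claim K.
-/

set_option autoImplicit false

open CongruenceSubgroup ModularCurve ModularCurve.Period CuspForm Polynomial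
open scoped MatrixGroups TensorProduct
open Fermat.Agent.S24 (Qbar)
open Fermat.Agent.ES.Mid (IsPE GQ)
open Fermat.Agent.ES.Coh

namespace Fermat.Agent.S36.Top

local notation "Qb" => AlgebraicClosure ℚ

/-- The concrete core: with the Eichler-Shimura module built from the finite level data `D`. -/
theorem S36_core (hFD : Fermat.Agent.FD.Stmt_FD)
    (p : ℕ) [Fact p.Prime] (M : ℕ) [NeZero M] (S : Finset ℕ)
    (hpS : p ∈ S) (hMS : ∀ q : ℕ, q.Prime → q ∣ M → q ∈ S)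
    (D : FinLevelData M)
    (𝒪' : Type) [CommRing 𝒪'] [IsDomain 𝒪'] [IsDiscreteValuationRing 𝒪']
    [IsAdicComplete (IsLocalRing.maximalIdeal 𝒪') 𝒪'] [CharZero 𝒪']
    (hp : (p : 𝒪') ∈ IsLocalRing.maximalIdeal 𝒪')
    (χ : CuspForm.heckeAlgebra M 2 (↑S : Set ℕ) →+* 𝒪') :
    ∃ r : GaloisRepAdic 𝒪',
      (∀ (ℓ : ℕ) (hℓ : ℓ.Prime) (hℓN : ¬ ℓ ∣ M) (hℓS : ℓ ∉ (↑S : Set ℕ)),
        ∀ A : ValuationSubring Qb, A.LiesOverPrime ℓ →
          ∀ σ : GQ, A.IsFrobeniusAt σ ℓ →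
            LinearMap.charpoly (r.ρ σ) =
              X ^ 2 - C (χ (CuspForm.heckeAlgebra.T hℓ hℓN hℓS)) * X + C ((ℓ : 𝒪'))) ∧
      (∀ q : Nat.Primes, Stmt_Z D p q →
        (∃ x0 : heckeAlgebra M 2 (↑S : Set ℕ), χ x0 ≠ 0 ∧
          ∀ f, x0.1 ((heckeFormsGen M 2 q).1 f) = 0) →
        ¬ r.IsUnipotentOnInertiaAt q) := by
  obtain ⟨r, h1, h2⟩ := rep_nonunip_of_ESModule hFD KF.kolFree FK.flatKer p M S hpS hMS
    (esModule M p D (↑S : Set ℕ) hMS) 𝒪' hp χ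
  refine ⟨r, h1, ?_⟩
  rintro q hZ ⟨x0, hx0, hx0U⟩
  obtain ⟨P, hP⟩ := SM.existsVal q q.2
  exact h2 q P hP (tauLam p q) (WLam M p) x0
    (fun x => ThetaLam_tauLam_comm M p _ x q)
    (fun x => WLam_ThetaLam_comm M p FC.frickeComm _ hMS x) hx0
    (ThetaLam_mul_tauLam_eq_zero M p _ x0 q hx0U)
    (fun l h1 h2 h3 => Z_lim p D q hZ P hP l h1 h2 h3)

/-- **The frozen statement S36**, from Frobenius density, Claim K and the contract `(Z)`. -/
theorem S36_of (hFD : Fermat.Agent.FD.Stmt_FD) (hK : Fermat.Agent.S18.Stmt_ClaimK)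
    (hZ : Dict.Stmt_Z)
    {M : ℕ} [NeZero M] {g : CuspForm (CongruenceSubgroup.Gamma0 M) 2} (hg : g.IsNewform)
    (lam : ℕ) [Fact lam.Prime]
    (S : Finset ℕ)
    (O' : Type) [CommRing O'] [IsDomain O'] [IsDiscreteValuationRing O']
    [IsAdicComplete (IsLocalRing.maximalIdeal O') O'] [Finite (IsLocalRing.ResidueField O')]
    [CharZero O'] (hlamO' : (lam : O') ∈ IsLocalRing.maximalIdeal O')
    (chig : CuspForm.heckeAlgebra M 2 (↑S : Set ℕ) →+* ℂ)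
    (hchig : ∀ (ℓ : ℕ) (hℓ : ℓ.Prime) (hℓM : ¬ ℓ ∣ M) (hℓS : ℓ ∉ (↑S : Set ℕ)),
      chig (CuspForm.heckeAlgebra.T hℓ hℓM hℓS) = ModularFormClass.qCoeff g ℓ)
    (iota : chig.range →+* O')
    (hlamS : lam ∈ S) (hMS : ∀ q : ℕ, q.Prime → q ∣ M → q ∈ S) :
    ∃ (O'' : Type) (_ : CommRing O'') (_ : IsDomain O'') (_ : IsDiscreteValuationRing O'')
      (_ : IsAdicComplete (IsLocalRing.maximalIdeal O'') O'') (_ : Finite (IsLocalRing.ResidueField O''))
      (_ : CharZero O'') (_ : Algebra O' O'') (_ : Module.Finite O' O'') (_ : IsLocalHom (algebraMap O' O'')),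
      Function.Injective (algebraMap O' O'') ∧
      ∃ ρ : GaloisRepAdic O'',
        (∀ (ℓ : ℕ) (hℓ : ℓ.Prime) (hℓM : ¬ ℓ ∣ M) (hℓS : ℓ ∉ (↑S : Set ℕ)),
          ∀ A : ValuationSubring (AlgebraicClosure ℚ), A.LiesOverPrime ℓ →
            ∀ σ : AlgebraicClosure ℚ ≃ₐ[ℚ] AlgebraicClosure ℚ, A.IsFrobeniusAt σ ℓ →
              LinearMap.charpoly (ρ.ρ σ) =
                X ^ 2 - C (algebraMap O' O'' ((iota.comp chig.rangeRestrict) (CuspForm.heckeAlgebra.T hℓ hℓM hℓS))) * X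
                  + C ((ℓ : O''))) ∧
        (∀ q : ℕ, q.Prime → q ≠ lam → M.factorization q = 2 → ¬ ρ.IsUnipotentOnInertiaAt q) := by
  obtain ⟨D, hD⟩ := exists_finLevelData_Z hK hZ M
  obtain ⟨r, h1, h2⟩ := S36_core hFD lam M S hlamS hMS D O' hlamO' (iota.comp chig.rangeRestrict)
  refine ⟨O', inferInstance, inferInstance, inferInstance, inferInstance, inferInstance,
    inferInstance, Algebra.id O', Module.Finite.self _, ⟨fun a ha => ha⟩, Function.injective_id,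
    r, h1, ?_⟩
  intro q hq hqlam hq2
  have hM0 : M ≠ 0 := NeZero.ne M
  have hq2M : q ^ 2 ∣ M := by
    rw [← hq2]; exact Nat.ordProj_dvd M q
  have hqM : q ∣ M := (dvd_pow_self q two_ne_zero).trans hq2M
  obtain ⟨t0, ht0, ht0U⟩ := Fermat.Agent.SMO.exists_annihilator_U
    (Fermat.Agent.ES.All.stmt_ES_of hK) hg S hMS chig hchig hq hqM hq2M
  refine h2 (⟨q, hq⟩ : Nat.Primes) (hD lam (⟨q, hq⟩ : Nat.Primes) hqlam hq2) ⟨t0, ?_, ?_⟩
  · intro h0
    apply ht0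
    have h3 : iota (chig.rangeRestrict t0) = iota 0 := by rw [map_zero]; exact h0
    have h4 := SM.iotaInj M (↑S : Set ℕ) chig O' iota h3
    exact congrArg Subtype.val h4
  · intro f
    have h3 : (heckeFormsGen M 2 (⟨q, hq⟩ : Nat.Primes)).1 = heckeULin 2 hqM := by
      rw [heckeFormsGen_of_dvd (q := (⟨q, hq⟩ : Nat.Primes)) hqM]
      rfl
    rw [h3]
    exact LinearMap.congr_fun ht0U f

end Fermat.Agent.S36.Top
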