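import Fermat.Agent.S36.Top.Interface
import Fermat.Agent.ES.RepS30

/-!
# S36 / Top : the abstract core: an inertia-fixed eigenvector vanishes
-/

set_option autoImplicit false

open scoped TensorProduct
open Fermat.Agent.ES.Rep (eigenSub mem_eigenSub)

namespace Fermat.Agent.S36.Top

theorem eigen_fixed_eq_zero (hFlat : Stmt_FlatKer)
    (R O' Λ T G : Type) [CommRing R] [IsDomain R] [CommRing O'] [IsDomain O'] [Algebra R O']
    [AddCommGroup Λ] [Module R Λ] [Module.Free R Λ] [Module.Finite R Λ] [CommRing T] [Group G]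
    (hinj : Function.Injective (algebraMap R O'))
    (ρ : G →* Module.End R Λ) (Θ : T →+* Module.End R Λ) (χ : T →+* O')
    (U Wf : Module.End R Λ)
    (hU : ∀ x, Θ x * U = U * Θ x) (hW : ∀ x, Wf * Θ x = Θ x * Wf)
    (x0 : T) (hx0 : χ x0 ≠ 0) (hx0U : Θ x0 * U = 0)
    (I : Subgroup G)
    (hZ : ∀ l : Λ, (∀ σ ∈ I, ρ σ l = l) → U l = 0 → U (Wf l) = 0 → l = 0)
    (w : O' ⊗[R] Λ)
    (hw : ∀ x, (Θ x).baseChange O' w = χ x • w)
    (hfix : ∀ σ ∈ I, (ρ σ).baseChange O' w = w) : w = 0 := by
  classical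
  let bc : Module.End R Λ →ₐ[R] Module.End O' (O' ⊗[R] Λ) := Module.End.baseChangeHom R O' Λ
  have hbc : ∀ f : Module.End R Λ, bc f = f.baseChange O' := fun _ => rfl
  -- `U` kills every eigenvector
  have key : ∀ v : O' ⊗[R] Λ, (∀ x, (Θ x).baseChange O' v = χ x • v) → U.baseChange O' v = 0 := by
    intro v hv
    have h1 : (Θ x0).baseChange O' (U.baseChange O' v) = 0 := by
      rw [← hbc, ← hbc, ← Module.End.mul_apply, ← map_mul, hx0U, map_zero, LinearMap.zero_apply]
    have h2 : (Θ x0).baseChange O' (U.baseChange O' v) = χ x0 • U.baseChange O' v := by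
      rw [← hbc, ← hbc, ← Module.End.mul_apply, ← map_mul, hU, map_mul, Module.End.mul_apply, hbc,
        hbc, hv, map_smul]
    rw [h1] at h2
    exact (smul_eq_zero.mp h2.symm).resolve_left hx0
  have hUw : U.baseChange O' w = 0 := key w hw
  have hWw : ∀ x, (Θ x).baseChange O' (Wf.baseChange O' w) = χ x • Wf.baseChange O' w := by
    intro x
    rw [← hbc, ← hbc, ← Module.End.mul_apply, ← map_mul, ← hW, map_mul, Module.End.mul_apply, hbc,
      hbc, hw, map_smul]
  have hUWw : U.baseChange O' (Wf.baseChange O' w) = 0 := key _ hWw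
  let f : (I ⊕ Bool) → Module.End R Λ := fun j =>
    match j with
    | Sum.inl σ => ρ σ.1 - 1
    | Sum.inr true => U
    | Sum.inr false => U * Wf
  refine hFlat R O' Λ (I ⊕ Bool) hinj f ?_ w ?_
  · intro l hl
    refine hZ l (fun σ hσ => ?_) (hl (Sum.inr true)) (hl (Sum.inr false))
    have := hl (Sum.inl ⟨σ, hσ⟩)
    exact sub_eq_zero.mp this
  · rintro (σ | b)
    · show (ρ σ.1 - 1 : Module.End R Λ).baseChange O' w = 0
      rw [← hbc, map_sub, map_one, LinearMap.sub_apply, hbc, hfix σ.1 σ.2, Module.End.one_apply,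
        sub_self]
    · cases b
      · show (U * Wf : Module.End R Λ).baseChange O' w = 0
        rw [← hbc, map_mul, Module.End.mul_apply, hbc, hbc, hUWw]
      · exact hUw

end Fermat.Agent.S36.Top
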